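import Fermat.Agent.Halasz.Plancherel
import Mathlib.NumberTheory.LSeries.SumCoeff
import Mathlib.NumberTheory.LSeries.Dirichlet
import Mathlib.NumberTheory.Harmonic.ZetaAsymp

/-!
# The error term of the divisor problem and its Laplace transform

If `∫_1^X Δ² ≤ ε X^(3/2)` then the transform of `Δ (e^u)` is holomorphic for `1 / 4 < re s`, and
its mean square on `re s = 1 / 4 + δ` is `O (ε / δ + 1)`.
-/

set_option autoImplicit false

noncomputable section

namespace FA.HardyOmega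

open Complex Filter Topology MeasureTheory Finset Asymptotics
open scoped Real FourierTransform

/-- The main term `x log x + (2 γ - 1) x`. -/
def divisorMain (x : ℝ) : ℝ := x * Real.log x + (2 * Real.eulerMascheroniConstant - 1) * x

/-- The error term of the divisor problem. -/
def divisorErr (x : ℝ) : ℝ := (∑ n ∈ Icc 1 ⌊x⌋₊, (n.divisors.card : ℝ)) - divisorMain x

/-- `Δ (e^u) ² e^u`. -/
def errSq (u : ℝ) : ℝ := divisorErr (Real.exp u) ^ 2 * Real.exp u

/-- `∫_1^X Δ² ≤ ε X^(3/2)` from `e ^ v₀` on, in the variable `log X`. -/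
def MeanSmall (ε v₀ : ℝ) : Prop :=
  ∀ v : ℝ, v₀ ≤ v → ∫ u in (0 : ℝ)..v, errSq u ≤ ε * Real.exp (3 / 2 * v)

/-- `Δ (e^u) ² e^(-2 τ u)`. -/
def errW (τ u : ℝ) : ℝ := divisorErr (Real.exp u) ^ 2 * Real.exp (-(2 * τ * u))

/-- `Δ (e^u) e^(-s u)`. -/
def errKernel (s : ℂ) (u : ℝ) : ℂ := (divisorErr (Real.exp u) : ℂ) * Complex.exp (-(s * u))

/-- The transform of the error term. -/
def errLaplace (s : ℂ) : ℂ := ∫ u in Set.Ioi (0 : ℝ), errKernel s u

theorem continuous_divisorMain_exp : Continuous fun u : ℝ => divisorMain (Real.exp u) := by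
  have e : (fun u : ℝ => divisorMain (Real.exp u)) =
      fun u => Real.exp u * u + (2 * Real.eulerMascheroniConstant - 1) * Real.exp u :=
    funext fun u => by rw [divisorMain, Real.log_exp]
  rw [e]
  fun_prop

theorem measurable_err : Measurable fun u : ℝ => divisorErr (Real.exp u) :=
  ((measurable_from_top (f := fun m : ℕ => ∑ n ∈ Icc 1 m, (n.divisors.card : ℝ))).comp
    (Nat.measurable_floor.comp Real.measurable_exp)).sub continuous_divisorMain_exp.measurable

theorem exists_err_bound (v : ℝ) :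
    ∃ B, ∀ u ∈ Set.Icc (0 : ℝ) v, |divisorErr (Real.exp u)| ≤ B := by
  obtain ⟨B, hB⟩ := isCompact_Icc.exists_bound_of_continuousOn
    (continuous_divisorMain_exp.continuousOn (s := Set.Icc (0 : ℝ) v))
  refine ⟨(∑ n ∈ Icc 1 ⌊Real.exp v⌋₊, (n.divisors.card : ℝ)) + B, fun u hu => ?_⟩
  refine (abs_sub _ _).trans (add_le_add ?_ (hB u hu))
  rw [abs_of_nonneg (sum_nonneg fun n _ => Nat.cast_nonneg _)]
  exact sum_le_sum_of_subset_of_nonneg
    (Icc_subset_Icc_right (Nat.floor_mono (Real.exp_le_exp.2 hu.2))) fun n _ _ => Nat.cast_nonneg _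

theorem integrableOn_err_pow (k : ℕ) {φ : ℝ → ℝ} (hφ : Continuous φ) {a b : ℝ} (ha : 0 ≤ a) :
    IntegrableOn (fun u => divisorErr (Real.exp u) ^ k * φ u) (Set.Icc a b) := by
  obtain ⟨B, hB⟩ := exists_err_bound b
  refine (Measure.integrableOn_of_bounded (M := B ^ k) measure_Icc_lt_top.ne
    (measurable_err.pow_const k).aestronglyMeasurable ?_).mul_continuousOn hφ.continuousOn
    isCompact_Icc
  filter_upwards [ae_restrict_mem measurableSet_Icc] with u hu
  rw [norm_pow, Real.norm_eq_abs]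
  exact pow_le_pow_left₀ (abs_nonneg _) (hB u ⟨ha.trans hu.1, hu.2⟩) k

theorem intervalIntegrable_err_pow (k : ℕ) {φ : ℝ → ℝ} (hφ : Continuous φ) {a b : ℝ} (ha : 0 ≤ a)
    (hab : a ≤ b) :
    IntervalIntegrable (fun u => divisorErr (Real.exp u) ^ k * φ u) volume a b :=
  (intervalIntegrable_iff_integrableOn_Icc_of_le hab).2 (integrableOn_err_pow k hφ ha)

theorem intervalIntegrable_errSq {a b : ℝ} (ha : 0 ≤ a) (hab : a ≤ b) :
    IntervalIntegrable errSq volume a b :=
  intervalIntegrable_err_pow 2 Real.continuous_exp ha hab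

theorem intervalIntegrable_errW (τ : ℝ) {a b : ℝ} (ha : 0 ≤ a) (hab : a ≤ b) :
    IntervalIntegrable (errW τ) volume a b :=
  intervalIntegrable_err_pow 2 (by fun_prop) ha hab

theorem errSq_nonneg (u : ℝ) : 0 ≤ errSq u := mul_nonneg (sq_nonneg _) (Real.exp_pos u).le

theorem errW_nonneg (τ u : ℝ) : 0 ≤ errW τ u := mul_nonneg (sq_nonneg _) (Real.exp_pos _).le

theorem errW_eq (τ u : ℝ) : errW τ u = errSq u * Real.exp (-((2 * τ + 1) * u)) := by
  rw [errW, errSq, mul_assoc (_ ^ 2), ← Real.exp_add]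
  ring_nf

theorem integral_errW_head_le {τ v : ℝ} (hτ : 0 ≤ τ) (hv : 0 ≤ v) :
    ∫ u in (0 : ℝ)..v, errW τ u ≤ ∫ u in (0 : ℝ)..v, errSq u := by
  refine intervalIntegral.integral_mono_on hv (intervalIntegrable_errW τ le_rfl hv)
    (intervalIntegrable_errSq le_rfl hv) fun u hu => ?_
  rw [errW_eq]
  exact mul_le_of_le_one_right (errSq_nonneg u) (Real.exp_le_one_iff.2 (by nlinarith [hu.1]))

theorem integral_errW_block_le {ε : ℝ} {k₀ m : ℕ} (h : MeanSmall ε k₀) (hm : k₀ ≤ m) {τ : ℝ}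
    (hτ : 0 ≤ τ) :
    ∫ u in (m : ℝ)..(m + 1 : ℝ), errW τ u ≤
      ε * Real.exp (3 / 2) * Real.exp (-(2 * τ - 1 / 2)) ^ m := by
  have hm0 : (0 : ℝ) ≤ m := Nat.cast_nonneg m
  calc ∫ u in (m : ℝ)..(m + 1 : ℝ), errW τ u
      ≤ ∫ u in (m : ℝ)..(m + 1 : ℝ), Real.exp (-((2 * τ + 1) * m)) * errSq u := by
        refine intervalIntegral.integral_mono_on (by linarith)
          (intervalIntegrable_errW τ hm0 (by linarith))
          ((intervalIntegrable_errSq hm0 (by linarith)).const_mul _) fun u hu => ?_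
        rw [errW_eq, mul_comm]
        exact mul_le_mul_of_nonneg_right (Real.exp_le_exp.2 (by nlinarith [hu.1])) (errSq_nonneg u)
    _ ≤ Real.exp (-((2 * τ + 1) * m)) * (ε * Real.exp (3 / 2 * (m + 1))) := by
        rw [intervalIntegral.integral_const_mul]
        refine mul_le_mul_of_nonneg_left (le_trans ?_
          (h (m + 1) (by exact_mod_cast Nat.le_succ_of_le hm))) (Real.exp_pos _).le
        rw [← intervalIntegral.integral_add_adjacent_intervals (intervalIntegrable_errSq le_rfl hm0)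
          (intervalIntegrable_errSq hm0 (show (m : ℝ) ≤ m + 1 by linarith)), le_add_iff_nonneg_left]
        exact intervalIntegral.integral_nonneg hm0 fun u _ => errSq_nonneg u
    _ = _ := by
        rw [← Real.exp_nat_mul, mul_assoc ε, ← Real.exp_add, mul_left_comm, ← Real.exp_add]
        ring_nf

/-- The weighted mean square is `O (ε / δ + 1)` at `τ = 1/4 + δ`. -/
theorem weight_bound {ε : ℝ} {k₀ : ℕ} (hε : 0 ≤ ε) (h : MeanSmall ε k₀) {τ : ℝ}
    (hτ : 1 / 4 < τ) (hτ' : τ ≤ 1 / 2) :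
    IntegrableOn (errW τ) (Set.Ioi 0) ∧ ∫ u in Set.Ioi (0 : ℝ), errW τ u ≤
      (∫ u in (0 : ℝ)..k₀, errSq u) + ε * Real.exp (3 / 2) / (τ - 1 / 4) := by
  obtain ⟨r, hr⟩ : ∃ r, r = Real.exp (-(2 * τ - 1 / 2)) := ⟨_, rfl⟩
  have hr0 : 0 < r := hr ▸ Real.exp_pos _
  have hgap : τ - 1 / 4 ≤ 1 - r := by
    have h1 := Real.add_one_le_exp (2 * τ - 1 / 2)
    rw [hr, Real.exp_neg, le_sub_iff_add_le, ← le_sub_iff_add_le']
    refine (inv_anti₀ (by linarith) h1).trans ?_
    rw [inv_le_iff_one_le_mul₀ (by linarith)]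
    nlinarith
  have hk0 : (0 : ℝ) ≤ k₀ := Nat.cast_nonneg _
  obtain ⟨C, hC⟩ : ∃ C, C = (∫ u in (0 : ℝ)..k₀, errSq u) + ε * Real.exp (3 / 2) / (τ - 1 / 4) :=
    ⟨_, rfl⟩
  rw [← hC]
  have hb : ∀ i : ℕ, ∫ u in (0 : ℝ)..((k₀ + i : ℕ) : ℝ), errW τ u ≤ C := fun i => by
    rw [← intervalIntegral.integral_add_adjacent_intervals
      (intervalIntegrable_errW τ le_rfl hk0)
      (intervalIntegrable_errW τ hk0
        (show (k₀ : ℝ) ≤ ((k₀ + i : ℕ) : ℝ) from Nat.cast_le.2 (Nat.le_add_right _ _))),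
      hC]
    refine add_le_add (integral_errW_head_le (by linarith) hk0) ?_
    have hsum := intervalIntegral.sum_integral_adjacent_intervals (n := i) (μ := volume)
      (f := errW τ) (a := fun j : ℕ => ((k₀ + j : ℕ) : ℝ)) fun j _ =>
        intervalIntegrable_errW τ (Nat.cast_nonneg _) (Nat.cast_le.2 (Nat.le_succ (k₀ + j)))
    simp only [add_zero] at hsum
    rw [← hsum]
    refine (sum_le_sum (g := fun j => ε * Real.exp (3 / 2) * r ^ j) fun j _ => ?_).trans ?_
    · have hb := integral_errW_block_le h (Nat.le_add_right k₀ j) (τ := τ) (by linarith)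
      rw [← hr] at hb
      refine le_trans (le_of_eq (by push_cast; ring_nf)) (hb.trans ?_)
      refine mul_le_mul_of_nonneg_left (pow_le_pow_of_le_one hr0.le (by linarith) ?_)
        (by positivity)
      exact Nat.le_add_left j k₀
    · rw [← mul_sum, div_eq_mul_inv (ε * Real.exp (3 / 2))]
      refine mul_le_mul_of_nonneg_left ?_ (by positivity)
      refine (Summable.sum_le_tsum _ (fun j _ => pow_nonneg hr0.le j)
        (summable_geometric_of_lt_one hr0.le (by linarith))).trans ?_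
      rw [tsum_geometric_of_lt_one hr0.le (by linarith)]
      exact inv_anti₀ (by linarith) hgap
  have htend : Tendsto (fun i : ℕ => ((k₀ + i : ℕ) : ℝ)) atTop atTop :=
    tendsto_natCast_atTop_atTop.comp (tendsto_atTop_mono (fun i => Nat.le_add_left i k₀) tendsto_id)
  have hint : IntegrableOn (errW τ) (Set.Ioi 0) := by
    refine integrableOn_Ioi_of_intervalIntegral_norm_bounded C 0 (fun i =>
      ((intervalIntegrable_errW τ le_rfl (Nat.cast_nonneg _)).1)) htend
      (Eventually.of_forall fun i => ?_)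
    simp only [Real.norm_of_nonneg (errW_nonneg τ _)]
    exact hb i
  exact ⟨hint, le_of_tendsto (intervalIntegral_tendsto_integral_Ioi 0 hint htend)
    (Eventually.of_forall hb)⟩

theorem integrable_absErr {ε : ℝ} {k₀ : ℕ} (hε : 0 ≤ ε) (h : MeanSmall ε k₀) {τ : ℝ}
    (hτ : 1 / 4 < τ) :
    IntegrableOn (fun u => |divisorErr (Real.exp u)| * Real.exp (-(τ * u))) (Set.Ioi 0) := by
  obtain ⟨σ, hσ1, hσ2, hστ⟩ : ∃ σ, 1 / 4 < σ ∧ σ ≤ 1 / 2 ∧ σ ≤ τ :=
    ⟨min τ (1 / 2), lt_min hτ (by norm_num), min_le_right _ _, min_le_left _ _⟩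
  obtain ⟨ρ, hρ⟩ : ∃ ρ, ρ = (σ + 1 / 4) / 2 := ⟨_, rfl⟩
  have hW := (weight_bound hε h (τ := ρ) (by linarith) (by linarith)).1
  refine ((hW.add (exp_neg_integrableOn_Ioi 0 (b := 2 * (σ - ρ)) (by linarith)))).mono'
    ((continuous_abs.measurable.comp measurable_err).mul (by fun_prop)).aestronglyMeasurable ?_
  filter_upwards [ae_restrict_mem measurableSet_Ioi] with u hu
  have hu0 : 0 ≤ u := le_of_lt hu
  rw [Real.norm_of_nonneg (by positivity), Pi.add_apply, errW]
  obtain ⟨a, ha⟩ : ∃ a, a = |divisorErr (Real.exp u)| * Real.exp (-(ρ * u)) := ⟨_, rfl⟩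
  obtain ⟨b, hb⟩ : ∃ b, b = Real.exp (-((σ - ρ) * u)) := ⟨_, rfl⟩
  have e1 : divisorErr (Real.exp u) ^ 2 * Real.exp (-(2 * ρ * u)) = a ^ 2 := by
    rw [ha, mul_pow, sq_abs, ← Real.exp_nat_mul]
    ring_nf
  have e2 : Real.exp (-(2 * (σ - ρ)) * u) = b ^ 2 := by
    rw [hb, ← Real.exp_nat_mul]
    ring_nf
  rw [e1, e2]
  calc |divisorErr (Real.exp u)| * Real.exp (-(τ * u)) ≤ a * b := by
        rw [ha, hb, mul_assoc, ← Real.exp_add]
        exact mul_le_mul_of_nonneg_left (Real.exp_le_exp.2 (by nlinarith)) (abs_nonneg _)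
    _ ≤ a ^ 2 + b ^ 2 := by nlinarith [sq_nonneg (a - b), sq_nonneg a, sq_nonneg b]

theorem norm_errKernel (s : ℂ) (u : ℝ) :
    ‖errKernel s u‖ = |divisorErr (Real.exp u)| * Real.exp (-(s.re * u)) := by
  rw [errKernel, norm_mul, norm_real, Real.norm_eq_abs, Complex.norm_exp]
  simp

theorem measurable_errKernel (s : ℂ) : Measurable (errKernel s) :=
  (Complex.measurable_ofReal.comp measurable_err).mul (by fun_prop)

theorem integrable_errKernel {ε : ℝ} {k₀ : ℕ} (hε : 0 ≤ ε) (h : MeanSmall ε k₀) {s : ℂ}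
    (hs : 1 / 4 < s.re) : IntegrableOn (errKernel s) (Set.Ioi 0) :=
  (integrable_absErr hε h hs).mono' (measurable_errKernel s).aestronglyMeasurable
    (ae_of_all _ fun u => le_of_eq (norm_errKernel s u))

theorem differentiableAt_errLaplace {ε : ℝ} {k₀ : ℕ} (hε : 0 ≤ ε) (h : MeanSmall ε k₀) {s₀ : ℂ}
    (hs : 1 / 4 < s₀.re) : DifferentiableAt ℂ errLaplace s₀ := by
  obtain ⟨d, hd⟩ : ∃ d, d = (s₀.re - 1 / 4) / 4 := ⟨_, rfl⟩
  have hd0 : 0 < d := by linarith
  have hb : IntegrableOn (fun u => 1 / d *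
      (|divisorErr (Real.exp u)| * Real.exp (-((1 / 4 + 2 * d) * u)))) (Set.Ioi 0) :=
    (integrable_absErr hε h (by linarith)).const_mul _
  refine (hasDerivAt_integral_of_dominated_loc_of_deriv_le
    (F' := fun s u => errKernel s u * (-(u : ℂ))) (Metric.ball_mem_nhds s₀ hd0)
    (Eventually.of_forall fun s => (measurable_errKernel s).aestronglyMeasurable)
    (integrable_errKernel hε h hs)
    ((measurable_errKernel s₀).mul (by fun_prop)).aestronglyMeasurable ?_ hb ?_).2.differentiableAt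
  · filter_upwards [ae_restrict_mem measurableSet_Ioi] with u hu s hs'
    have hu0 : 0 ≤ u := le_of_lt hu
    rw [Metric.mem_ball, dist_eq_norm] at hs'
    have hre := abs_le.1 ((Complex.abs_re_le_norm _).trans hs'.le)
    rw [sub_re] at hre
    rw [norm_mul, norm_neg, norm_real, Real.norm_of_nonneg hu0, norm_errKernel, mul_left_comm,
      mul_assoc]
    refine mul_le_mul_of_nonneg_left ?_ (abs_nonneg _)
    have h1 : u ≤ 1 / d * Real.exp (d * u) := by
      rw [← div_le_iff₀' (by positivity), div_div_eq_mul_div, div_one, mul_comm]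
      linarith [Real.add_one_le_exp (d * u)]
    calc Real.exp (-(s.re * u)) * u ≤ Real.exp (-(s.re * u)) * (1 / d * Real.exp (d * u)) :=
          mul_le_mul_of_nonneg_left h1 (Real.exp_pos _).le
      _ = 1 / d * Real.exp (-(s.re * u) + d * u) := by rw [Real.exp_add]; ring
      _ ≤ _ := mul_le_mul_of_nonneg_left (Real.exp_le_exp.2 (by nlinarith [hre.1])) (by positivity)
  · refine ae_of_all _ fun u s _ => ?_
    have hd1 : HasDerivAt (fun z : ℂ => Complex.exp (-(z * u)))
        (Complex.exp (-(s * u)) * (-(u : ℂ))) s :=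
      (by simpa using ((hasDerivAt_id s).mul_const (u : ℂ)).fun_neg :
        HasDerivAt (fun z : ℂ => -(z * u)) (-(u : ℂ)) s).cexp
    have := hd1.const_mul (divisorErr (Real.exp u) : ℂ)
    simpa only [errKernel, mul_assoc] using this

theorem LSeries_divisors {s : ℂ} (hs : 1 < s.re) :
    LSeries (fun n => ((n.divisors.card : ℝ) : ℂ)) s = riemannZeta s ^ 2 := by
  have hz : LSeriesSummable (fun n => ((ArithmeticFunction.zeta : ArithmeticFunction ℂ) n)) s :=
    (LSeriesSummable_congr s fun {n} hn => by simp [hn]).2 (LSeriesSummable_one_iff.2 hs)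
  have e : LSeries (fun n => ((ArithmeticFunction.zeta : ArithmeticFunction ℂ) n)) s =
      riemannZeta s := by
    rw [← LSeries_one_eq_riemannZeta hs]
    exact LSeries_congr (fun {n} hn => by simp [hn]) s
  rw [sq, ← e, ← ArithmeticFunction.LSeries_mul' hz hz]
  refine LSeries_congr (fun {n} hn => ?_) s
  rw [ArithmeticFunction.coe_zeta_mul_apply, Finset.sum_congr rfl fun i hi => by
    rw [ArithmeticFunction.natCoe_apply, ArithmeticFunction.zeta_apply,
      if_neg (Nat.pos_of_mem_divisors hi).ne']]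
  simp

/-- The transform for real arguments to the right of `2`. -/
theorem errLaplace_real {ε : ℝ} {k₀ : ℕ} (hε : 0 ≤ ε) (h : MeanSmall ε k₀) {x : ℝ} (hx : 2 < x) :
    errLaplace x = riemannZeta x ^ 2 / x - 1 / ((x : ℂ) - 1) ^ 2 -
      (2 * Real.eulerMascheroniConstant - 1 : ℝ) / ((x : ℂ) - 1) := by
  obtain ⟨c, hc⟩ : ∃ c, c = 2 * Real.eulerMascheroniConstant - 1 := ⟨_, rfl⟩
  rw [← hc]
  obtain ⟨D, hD⟩ : ∃ D : ℝ → ℂ, D = fun u : ℝ =>
      (∑ k ∈ Icc 1 ⌊Real.exp u⌋₊, ((k.divisors.card : ℝ) : ℂ)) * Complex.exp (-((x : ℂ) * u)) :=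
    ⟨_, rfl⟩
  have hO : (fun n : ℕ => ∑ k ∈ Icc 1 n, (k.divisors.card : ℝ)) =O[atTop]
      fun n => (n : ℝ) ^ (2 : ℝ) := by
    refine IsBigO.of_bound 1 (Eventually.of_forall fun n => ?_)
    rw [Real.norm_of_nonneg (sum_nonneg fun k _ => Nat.cast_nonneg _),
      Real.norm_of_nonneg (by positivity), one_mul, Real.rpow_two]
    refine (sum_le_card_nsmul _ _ (n : ℝ) fun k hk => ?_).trans ?_
    · exact_mod_cast (Nat.card_divisors_le_self k).trans (mem_Icc.1 hk).2
    · rw [Nat.card_Icc, nsmul_eq_mul, Nat.add_sub_cancel, sq]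
  have hD1 : ∫ u in Set.Ioi (0 : ℝ), D u = riemannZeta x ^ 2 / x := by
    have hL := LSeries_eq_mul_integral_of_nonneg (fun n => (n.divisors.card : ℝ))
      (r := 2) (s := (x : ℂ)) zero_le_two (by simpa using hx) hO fun n => Nat.cast_nonneg _
    rw [← LSeries_divisors (s := (x : ℂ)) (by simp; linarith), hL,
      mul_div_cancel_left₀ _ (by exact_mod_cast (show x ≠ 0 by linarith)),
      ← Real.exp_zero, ← integral_comp_exp_Ioi, hD]
    refine setIntegral_congr_fun measurableSet_Ioi fun u _ => ?_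
    simp only [Complex.real_smul]
    rw [cpow_def_of_ne_zero (ofReal_ne_zero.2 (Real.exp_ne_zero u)),
      ← ofReal_log (Real.exp_nonneg u), Real.log_exp, mul_left_comm, ofReal_exp,
      ← Complex.exp_add]
    ring_nf
  obtain ⟨M, hM⟩ : ∃ M : ℝ → ℝ,
      M = fun u => u * Real.exp (-((x - 1) * u)) + c * Real.exp (-((x - 1) * u)) := ⟨_, rfl⟩
  have hx1 : 0 < x - 1 := by linarith
  have e2 : ∀ u : ℝ, u * Real.exp (-((x - 1) * u)) =
      u ^ ((2 : ℝ) - 1) * Real.exp (-((x - 1) * u)) := fun u => by norm_num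
  have hi1 : IntegrableOn (fun u => u * Real.exp (-((x - 1) * u))) (Set.Ioi 0) := by
    refine ((exp_neg_integrableOn_Ioi 0 (b := (x - 1) / 2) (by linarith)).const_mul
      (2 / (x - 1))).mono' (by fun_prop) ?_
    filter_upwards [ae_restrict_mem measurableSet_Ioi] with u hu
    have hu0 : 0 ≤ u := le_of_lt hu
    rw [Real.norm_of_nonneg (by positivity)]
    calc u * Real.exp (-((x - 1) * u))
        ≤ 2 / (x - 1) * Real.exp ((x - 1) / 2 * u) * Real.exp (-((x - 1) * u)) := by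
          refine mul_le_mul_of_nonneg_right ?_ (Real.exp_pos _).le
          rw [div_mul_eq_mul_div, le_div_iff₀ hx1]
          linarith [Real.add_one_le_exp ((x - 1) / 2 * u)]
      _ = _ := by rw [mul_assoc, ← Real.exp_add]; ring_nf
  have hi2 : IntegrableOn (fun u => Real.exp (-((x - 1) * u))) (Set.Ioi 0) := by
    simpa only [neg_mul] using exp_neg_integrableOn_Ioi 0 hx1
  have hM1 : ∫ u in Set.Ioi (0 : ℝ), M u = 1 / (x - 1) ^ 2 + c / (x - 1) := by
    rw [hM, integral_add hi1 (hi2.const_mul c), integral_const_mul]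
    simp only [e2]
    rw [Real.integral_rpow_mul_exp_neg_mul_Ioi two_pos hx1, Real.Gamma_two, Real.rpow_two]
    have hI := integral_exp_mul_Ioi (show -(x - 1) < 0 by linarith) 0
    simp only [neg_mul] at hI
    rw [hI]
    field_simp
    simp
  have hkey : ∀ u : ℝ, errKernel x u = D u - (M u : ℂ) := fun u => by
    have e : ∀ y : ℝ, Real.exp u * (y * Real.exp (-(x * u))) = y * Real.exp (-((x - 1) * u)) :=
      fun y => by rw [mul_left_comm, ← Real.exp_add]; ring_nf
    rw [hD, hM, errKernel, divisorErr, divisorMain, Real.log_exp, ← hc]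
    dsimp only
    rw [← e u, ← e c]
    push_cast
    ring
  have hiM : IntegrableOn M (Set.Ioi 0) := hM ▸ hi1.add (hi2.const_mul c)
  have hiD : IntegrableOn D (Set.Ioi 0) := by
    refine ((integrable_errKernel hε h (s := (x : ℂ)) (by simp; linarith)).add hiM.ofReal).congr
      (ae_of_all _ fun u => ?_)
    simp [hkey u]
  have hiMc : Integrable (fun u => (M u : ℂ)) (volume.restrict (Set.Ioi 0)) := hiM.ofReal
  rw [errLaplace, setIntegral_congr_fun measurableSet_Ioi fun u _ => hkey u,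
    integral_sub hiD hiMc, integral_complex_ofReal, hD1, hM1]
  push_cast
  ring

/-- The continuation to `1 / 4 < re s`. -/
theorem errLaplace_eq {ε : ℝ} {k₀ : ℕ} (hε : 0 ≤ ε) (h : MeanSmall ε k₀) {s : ℂ}
    (hs : 1 / 4 < s.re) (hs1 : s ≠ 1) :
    riemannZeta s ^ 2 / s = errLaplace s + (1 / (s - 1) ^ 2 +
      (2 * Real.eulerMascheroniConstant - 1 : ℝ) / (s - 1)) := by
  obtain ⟨c, hc⟩ : ∃ c : ℂ, c = ((2 * Real.eulerMascheroniConstant - 1 : ℝ) : ℂ) := ⟨_, rfl⟩
  rw [← hc]
  obtain ⟨U, hU⟩ : ∃ U, U = {z : ℂ | 1 / 4 < z.re} := ⟨_, rfl⟩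
  have hUo : IsOpen U := hU ▸ isOpen_lt continuous_const continuous_re
  have hf : AnalyticOnNhd ℂ (fun z : ℂ => (z - 1) ^ 2 * z * errLaplace z) U :=
    DifferentiableOn.analyticOnNhd (fun z hz => (((by fun_prop :
      DifferentiableAt ℂ (fun z : ℂ => (z - 1) ^ 2 * z) z).mul
      (differentiableAt_errLaplace hε h (by rw [hU] at hz; exact hz))).differentiableWithinAt)) hUo
  have hg : AnalyticOnNhd ℂ (fun z : ℂ => riemannZeta₁ z ^ 2 - z - c * (z * (z - 1))) U :=
    DifferentiableOn.analyticOnNhd (fun z _ => ((((differentiable_riemannZeta₁ z).pow 2).sub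
      differentiableAt_id).sub (by fun_prop :
        DifferentiableAt ℂ (fun z : ℂ => c * (z * (z - 1))) z)).differentiableWithinAt) hUo
  have hpre : IsPreconnected U := hU ▸ (convex_halfSpace_re_gt (1 / 4)).isPreconnected
  have key : ∀ z : ℂ, z ≠ 1 → riemannZeta₁ z = (z - 1) * riemannZeta z := fun z hz => by
    rw [riemannZeta_eq_inv_sub_mul hz, ← mul_assoc, mul_inv_cancel₀ (sub_ne_zero.2 hz), one_mul]
  have heq := hf.eqOn_of_preconnected_of_frequently_eq hg hpre (z₀ := (3 : ℂ))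
    (hU ▸ (by simp; norm_num : (3 : ℂ) ∈ {z : ℂ | 1 / 4 < z.re})) ?_ (hU ▸ hs : s ∈ U)
  · simp only [key s hs1] at heq
    have hs0 : s ≠ 0 := fun e => by rw [e] at hs; norm_num at hs
    have hs1' := sub_ne_zero.2 hs1
    field_simp
    linear_combination -heq
  · have ht : Tendsto (fun x : ℝ => (x : ℂ)) (𝓝[≠] 3) (𝓝[≠] (3 : ℂ)) := by
      refine tendsto_nhdsWithin_of_tendsto_nhds_of_eventually_within _
        ((continuous_ofReal.tendsto' 3 3 (by simp)).mono_left nhdsWithin_le_nhds) ?_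
      filter_upwards [self_mem_nhdsWithin] with y hy
      simpa [Complex.ext_iff] using hy
    refine ht.frequently (Eventually.frequently ?_)
    filter_upwards [nhdsWithin_le_nhds (eventually_gt_nhds (show (2 : ℝ) < 3 by norm_num))]
      with x hx
    have hx1 : (x : ℂ) ≠ 1 := by exact_mod_cast (show x ≠ 1 by linarith)
    have hx0 : (x : ℂ) ≠ 0 := by exact_mod_cast (show x ≠ 0 by linarith)
    rw [errLaplace_real hε h hx, key _ hx1, ← hc]
    have := sub_ne_zero.2 hx1
    field_simp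

/-- Plancherel: the mean square of the transform on a vertical segment. -/
theorem integral_norm_errLaplace_sq_le {ε : ℝ} {k₀ : ℕ} (hε : 0 ≤ ε) (h : MeanSmall ε k₀)
    {σ : ℝ} (hσ : 1 / 4 < σ) (hσ' : σ ≤ 1 / 2) {A B : ℝ} (hAB : A ≤ B) :
    ∫ t in A..B, ‖errLaplace ((σ : ℂ) + t * I)‖ ^ 2 ≤
      2 * π * ((∫ u in (0 : ℝ)..k₀, errSq u) + ε * Real.exp (3 / 2) / (σ - 1 / 4)) := by
  obtain ⟨g, hg⟩ : ∃ g : ℝ → ℂ, g = (Set.Ioi (0 : ℝ)).indicator (errKernel σ) := ⟨_, rfl⟩
  have hσre : (σ : ℂ).re = σ := ofReal_re σ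
  have h1 : Integrable g := hg ▸ (integrable_indicator_iff measurableSet_Ioi).2
    (integrable_errKernel hε h (by rw [hσre]; exact hσ))
  have hsq : ∀ u, ‖g u‖ ^ 2 = (Set.Ioi (0 : ℝ)).indicator (errW σ) u := fun u => by
    by_cases hu : u ∈ Set.Ioi (0 : ℝ)
    · rw [hg, Set.indicator_of_mem hu, Set.indicator_of_mem hu, norm_errKernel, mul_pow, sq_abs,
        hσre, errW, ← Real.exp_nat_mul]
      ring_nf
    · rw [hg, Set.indicator_of_notMem hu, Set.indicator_of_notMem hu]
      simp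
  obtain ⟨hW, hWle⟩ := weight_bound hε h hσ hσ'
  have h2i : Integrable fun u => ‖g u‖ ^ 2 := by
    simp only [hsq]
    exact (integrable_indicator_iff measurableSet_Ioi).2 hW
  have h2 : MemLp g 2 := (memLp_two_iff_integrable_sq_norm h1.aestronglyMeasurable).2 h2i
  have hfour : ∀ ξ : ℝ, 𝓕 g ξ = errLaplace ((σ : ℂ) + ((2 * π * ξ : ℝ) : ℂ) * I) := fun ξ => by
    rw [Real.fourier_real_eq_integral_exp_smul, errLaplace, ← integral_indicator measurableSet_Ioi]
    refine integral_congr_ae (ae_of_all _ fun u => ?_)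
    by_cases hu : u ∈ Set.Ioi (0 : ℝ)
    · simp only [hg, Set.indicator_of_mem hu, smul_eq_mul, errKernel]
      rw [mul_left_comm, ← Complex.exp_add]
      push_cast
      ring_nf
    · simp only [hg, Set.indicator_of_notMem hu, smul_zero]
  have hc : Continuous (𝓕 g) :=
    VectorFourier.fourierIntegral_continuous Real.continuous_fourierChar
      (L := innerₗ ℝ) continuous_inner h1
  have hint : IntegrableOn (fun ξ => ‖𝓕 g ξ‖ ^ 2) (Set.Ioc (A / (2 * π)) (B / (2 * π))) :=
    (hc.norm.pow 2).continuousOn.integrableOn_Icc.mono_set Set.Ioc_subset_Icc_self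
  have hJ : 0 ≤ ∫ u, ‖g u‖ ^ 2 := integral_nonneg fun u => by positivity
  have hP : ∫ ξ in Set.Ioc (A / (2 * π)) (B / (2 * π)), ‖𝓕 g ξ‖ ^ 2 ≤ ∫ u, ‖g u‖ ^ 2 := by
    rw [← ENNReal.ofReal_le_ofReal_iff hJ, ofReal_integral_eq_lintegral_ofReal hint
      (ae_of_all _ fun ξ => by positivity), ofReal_integral_eq_lintegral_ofReal h2i
      (ae_of_all _ fun u => by positivity)]
    simp only [ENNReal.ofReal_pow (norm_nonneg _), ofReal_norm]
    exact (setLIntegral_le_lintegral _ _).trans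
      (le_of_eq (FA.Halasz.lintegral_enorm_fourier_sq h1 h2))
  have hπ : 0 < 2 * π := by positivity
  have hJle : ∫ u, ‖g u‖ ^ 2 ≤ (∫ u in (0 : ℝ)..k₀, errSq u) +
      ε * Real.exp (3 / 2) / (σ - 1 / 4) := by
    simp only [hsq]
    rwa [integral_indicator measurableSet_Ioi]
  refine le_trans (le_of_eq ?_) (mul_le_mul_of_nonneg_left (hP.trans hJle) hπ.le)
  rw [← intervalIntegral.integral_of_le (div_le_div_of_nonneg_right hAB hπ.le)]
  simp only [hfour]
  rw [intervalIntegral.integral_comp_mul_left (c := 2 * π)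
    (f := fun t => ‖errLaplace ((σ : ℂ) + (t : ℂ) * I)‖ ^ 2) hπ.ne', smul_eq_mul,
    ← mul_assoc, mul_inv_cancel₀ hπ.ne', one_mul, mul_div_cancel₀ _ hπ.ne',
    mul_div_cancel₀ _ hπ.ne']

end FA.HardyOmega
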