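import Fermat.Agent.HardyOmega.Zeta
import Fermat.Agent.HardyOmega.Error

/-!
# The mean square of the error of the divisor problem is not `o (X^(3/2))`

A small mean square makes `∫ |ζ (σ + it)|⁴ / |s|²` on `σ = 1/4 + δ` smaller than `c / δ`.
-/

set_option autoImplicit false

noncomputable section

namespace FA.HardyOmega

open Complex Filter Topology MeasureTheory Finset
open scoped Real

/-- `∫_{T₀}^{T₀ 2^K}` of the weighted fourth power, from below. -/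
theorem sum_le_integral_fourth {c T₀ σ : ℝ} (hT₀ : 2 ≤ T₀) (hσ : 0 < σ)
    (h : ∀ T : ℝ, T₀ ≤ T → c * T ^ (1 - 4 * σ) ≤
      ∫ t in T..2 * T, ‖riemannZeta ((σ : ℂ) + t * I)‖ ^ 4 / ‖(σ : ℂ) + t * I‖ ^ 2) (K : ℕ) :
    c * T₀ ^ (1 - 4 * σ) * ∑ j ∈ range K, ((2 : ℝ) ^ (1 - 4 * σ)) ^ j ≤
      ∫ t in T₀..T₀ * 2 ^ K, ‖riemannZeta ((σ : ℂ) + t * I)‖ ^ 4 / ‖(σ : ℂ) + t * I‖ ^ 2 := by
  have hint : ∀ a b : ℝ, 2 ≤ a → 2 ≤ b → IntervalIntegrable (fun t : ℝ =>
      ‖riemannZeta ((σ : ℂ) + t * I)‖ ^ 4 / ‖(σ : ℂ) + t * I‖ ^ 2) volume a b := by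
    intro a b ha hb
    refine ContinuousOn.intervalIntegrable fun t ht => ?_
    have ht2 : 2 ≤ t := (le_min ha hb).trans ht.1
    have h1 : (σ : ℂ) + t * I ≠ 1 := fun e => by
      have := congrArg Complex.im e
      simp at this
      linarith
    refine ((((ContinuousAt.comp' (f := fun t : ℝ => (σ : ℂ) + t * I)
      (differentiableAt_riemannZeta h1).continuousAt (by fun_prop)).norm).pow 4).div
      (show ContinuousAt (fun t : ℝ => ‖(σ : ℂ) + t * I‖ ^ 2) t by fun_prop)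
      (pow_ne_zero 2 (norm_ne_zero_iff.2 fun e => ?_))).continuousWithinAt
    simpa [hσ.ne'] using congrArg Complex.re e
  have hge : ∀ j : ℕ, 2 ≤ T₀ * 2 ^ j := fun j =>
    hT₀.trans (le_mul_of_one_le_right (by linarith) (one_le_pow₀ one_le_two))
  induction K with
  | zero => simp
  | succ K ih =>
    rw [sum_range_succ, mul_add, ← intervalIntegral.integral_add_adjacent_intervals
      (hint _ _ hT₀ (hge K)) (hint _ _ (hge K) (hge (K + 1)))]
    refine add_le_add ih ?_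
    have h1 := h (T₀ * 2 ^ K) (le_mul_of_one_le_right (by linarith) (one_le_pow₀ one_le_two))
    rw [show 2 * (T₀ * 2 ^ K) = T₀ * 2 ^ (K + 1) by ring,
      Real.mul_rpow (by linarith) (by positivity), ← Real.rpow_natCast, ← Real.rpow_mul two_pos.le,
      mul_comm (K : ℝ), Real.rpow_mul two_pos.le, Real.rpow_natCast, Real.rpow_natCast] at h1
    rw [mul_assoc c]
    exact h1

/-- The same integral, from above. -/
theorem integral_fourth_le {ε : ℝ} {k₀ : ℕ} (hε : 0 ≤ ε) (h : MeanSmall ε k₀) {σ : ℝ}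
    (hσ : 1 / 4 < σ) (hσ' : σ ≤ 1 / 2) {A B : ℝ} (hA : 2 ≤ A) (hAB : A ≤ B) :
    ∫ t in A..B, ‖riemannZeta ((σ : ℂ) + t * I)‖ ^ 4 / ‖(σ : ℂ) + t * I‖ ^ 2 ≤
      4 * π * ((∫ u in (0 : ℝ)..k₀, errSq u) + ε * Real.exp (3 / 2) / (σ - 1 / 4)) +
        2 * (1 + |2 * Real.eulerMascheroniConstant - 1|) ^ 2 := by
  obtain ⟨G, hG⟩ : ∃ G, G = |2 * Real.eulerMascheroniConstant - 1| := ⟨_, rfl⟩
  rw [← hG]
  have hne : ∀ t ∈ Set.uIcc A B, (σ : ℂ) + t * I ≠ 1 := fun t ht e => by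
    rw [Set.uIcc_of_le hAB] at ht
    have := congrArg Complex.im e
    simp at this
    linarith [ht.1]
  have hs0 : ∀ t : ℝ, (σ : ℂ) + t * I ≠ 0 := fun t e => by
    have := congrArg Complex.re e
    simp at this
    linarith
  have hI4 : IntervalIntegrable (fun t : ℝ =>
      ‖riemannZeta ((σ : ℂ) + t * I)‖ ^ 4 / ‖(σ : ℂ) + t * I‖ ^ 2) volume A B :=
    ContinuousOn.intervalIntegrable fun t ht =>
      ((((ContinuousAt.comp' (f := fun t : ℝ => (σ : ℂ) + t * I)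
        (differentiableAt_riemannZeta (hne t ht)).continuousAt (by fun_prop)).norm).pow 4).div
        (show ContinuousAt (fun t : ℝ => ‖(σ : ℂ) + t * I‖ ^ 2) t by fun_prop)
        (pow_ne_zero 2 (norm_ne_zero_iff.2 (hs0 t)))).continuousWithinAt
  have hIL : IntervalIntegrable (fun t : ℝ => ‖errLaplace ((σ : ℂ) + t * I)‖ ^ 2) volume A B :=
    ((Continuous.norm (continuous_iff_continuousAt.2 fun t => ContinuousAt.comp'
      (f := fun t : ℝ => (σ : ℂ) + t * I)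
      (differentiableAt_errLaplace hε h (by simp; linarith)).continuousAt (by fun_prop))).pow
      2).intervalIntegrable _ _
  have hci : ContinuousOn (fun t : ℝ => 1 / t ^ 2) (Set.uIcc A B) :=
    continuousOn_const.div (continuousOn_id.pow 2) fun x hx => by
      rw [Set.uIcc_of_le hAB] at hx
      exact pow_ne_zero 2 (by linarith [hx.1] : x ≠ 0)
  refine (intervalIntegral.integral_mono_on hAB hI4
    ((hIL.const_mul 2).add (hci.intervalIntegrable.const_mul (2 * (1 + G) ^ 2)))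
    fun t ht => ?_).trans ?_
  · have ht2 : 2 ≤ t := hA.trans ht.1
    obtain ⟨s, hs⟩ : ∃ s : ℂ, s = (σ : ℂ) + t * I := ⟨_, rfl⟩
    have hre : 1 / 4 < s.re := by simp [hs]; linarith
    have hs1 : s ≠ 1 := hs ▸ hne t (by rw [Set.uIcc_of_le hAB]; exact ht)
    rw [← hs]
    rw [show ‖riemannZeta s‖ ^ 4 / ‖s‖ ^ 2 = ‖riemannZeta s ^ 2 / s‖ ^ 2 by
      rw [norm_div, norm_pow, div_pow]; ring, errLaplace_eq hε h hre hs1]
    obtain ⟨m, hm⟩ : ∃ m, m = 1 / (s - 1) ^ 2 +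
        ((2 * Real.eulerMascheroniConstant - 1 : ℝ) : ℂ) / (s - 1) := ⟨_, rfl⟩
    rw [← hm]
    have hn : t ≤ ‖s - 1‖ := by
      refine le_trans ?_ (Complex.abs_im_le_norm _)
      simp [hs, le_abs_self]
    have hmle : ‖m‖ ≤ (1 + G) / t := by
      rw [hm, add_div]
      refine (norm_add_le _ _).trans (add_le_add ?_ ?_)
      · rw [norm_div, norm_one, norm_pow]
        refine div_le_div_of_nonneg_left zero_le_one (by linarith) ?_
        nlinarith
      · rw [norm_div, norm_real, Real.norm_eq_abs, ← hG]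
        exact div_le_div_of_nonneg_left (hG ▸ abs_nonneg _) (by linarith) hn
    calc ‖errLaplace s + m‖ ^ 2 ≤ (‖errLaplace s‖ + ‖m‖) ^ 2 :=
          pow_le_pow_left₀ (norm_nonneg _) (norm_add_le _ _) 2
      _ ≤ 2 * ‖errLaplace s‖ ^ 2 + 2 * ‖m‖ ^ 2 := by nlinarith [sq_nonneg (‖errLaplace s‖ - ‖m‖)]
      _ ≤ 2 * ‖errLaplace s‖ ^ 2 + 2 * ((1 + G) / t) ^ 2 := by gcongr
      _ = _ := by rw [div_pow]; ring
  · rw [intervalIntegral.integral_add (hIL.const_mul 2)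
      (hci.intervalIntegrable.const_mul _), intervalIntegral.integral_const_mul,
      intervalIntegral.integral_const_mul]
    have hd : ∀ x ∈ Set.uIcc A B, HasDerivAt (fun y : ℝ => -y⁻¹) (1 / x ^ 2) x := fun x hx => by
      rw [Set.uIcc_of_le hAB] at hx
      simpa [one_div] using (hasDerivAt_inv (show x ≠ 0 by linarith [hx.1])).fun_neg
    rw [intervalIntegral.integral_eq_sub_of_hasDerivAt hd hci.intervalIntegrable]
    have h1 : -B⁻¹ - -A⁻¹ ≤ 1 := by
      have : 0 ≤ B⁻¹ := inv_nonneg.2 (by linarith)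
      have : A⁻¹ ≤ 1 := inv_le_one_of_one_le₀ (by linarith)
      linarith
    refine add_le_add ?_ (mul_le_of_le_one_right (by positivity) h1)
    refine (mul_le_mul_of_nonneg_left (integral_norm_errLaplace_sq_le hε h hσ hσ' hAB)
      zero_le_two).trans (le_of_eq ?_)
    ring

/-- **The mean square is not small.** -/
theorem exists_not_meanSmall : ∃ ε : ℝ, 0 < ε ∧ ∀ v₀ : ℝ, ¬ MeanSmall ε v₀ := by
  obtain ⟨c, T₀, hc, hT₀, hlow⟩ := exists_fourth_moment_lower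
  obtain ⟨E, hE⟩ : ∃ E, E = Real.exp (3 / 2) := ⟨_, rfl⟩
  have hE0 : 0 < E := hE ▸ Real.exp_pos _
  refine ⟨c / (24 * π * E * T₀), by positivity, fun v₀ hsmall => ?_⟩
  obtain ⟨ε, hεdef⟩ : ∃ ε, ε = c / (24 * π * E * T₀) := ⟨_, rfl⟩
  rw [← hεdef] at hsmall
  have hε : 0 ≤ ε := by rw [hεdef]; positivity
  obtain ⟨k₀, hk₀⟩ := exists_nat_ge v₀
  have hk : MeanSmall ε k₀ := fun v hv => hsmall v (hk₀.trans hv)
  obtain ⟨C, hC⟩ : ∃ C, C = 4 * π * (∫ u in (0 : ℝ)..k₀, errSq u) +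
      2 * (1 + |2 * Real.eulerMascheroniConstant - 1|) ^ 2 := ⟨_, rfl⟩
  have hW : 0 ≤ ∫ u in (0 : ℝ)..k₀, errSq u :=
    intervalIntegral.integral_nonneg (Nat.cast_nonneg _) fun u _ => errSq_nonneg u
  have hC0 : 0 ≤ C := by rw [hC]; positivity
  obtain ⟨δ, hδ0, hδ1, hδ2⟩ : ∃ δ, 0 < δ ∧ δ ≤ 1 / 12 ∧ δ * (6 * T₀ * (C + 1)) ≤ c := by
    refine ⟨min (1 / 12) (c / (6 * T₀ * (C + 1))), lt_min (by norm_num) (by positivity),
      min_le_left _ _, ?_⟩
    rw [← le_div_iff₀ (by positivity)]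
    exact min_le_right _ _
  obtain ⟨σ, hσ⟩ : ∃ σ, σ = 1 / 4 + δ := ⟨_, rfl⟩
  obtain ⟨r, hr⟩ : ∃ r, r = (2 : ℝ) ^ (1 - 4 * σ) := ⟨_, rfl⟩
  have hr0 : 0 < r := hr ▸ Real.rpow_pos_of_pos two_pos _
  have hr1 : r < 1 := hr ▸ Real.rpow_lt_one_of_one_lt_of_neg one_lt_two (by rw [hσ]; linarith)
  have hgap : 1 - r ≤ 3 * δ := by
    rw [hr, Real.rpow_def_of_pos two_pos, hσ]
    have := Real.add_one_le_exp (Real.log 2 * (1 - 4 * (1 / 4 + δ)))
    nlinarith [Real.log_two_lt_d9]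
  have hsum : ∀ K : ℕ, c * T₀ ^ (1 - 4 * σ) * ∑ j ∈ range K, r ^ j ≤
      C + 4 * π * (ε * E / δ) := fun K => by
    have h1 := sum_le_integral_fourth hT₀ (σ := σ) (c := c) (by linarith)
      (fun T hT => hlow σ T (by linarith) (by linarith) hT) K
    have h2 := integral_fourth_le hε hk (σ := σ) (by linarith) (by linarith) (A := T₀)
      (B := T₀ * 2 ^ K) hT₀ (le_mul_of_one_le_right (by linarith) (one_le_pow₀ one_le_two))
    rw [← hr] at h1
    rw [← hE, show σ - 1 / 4 = δ by linarith] at h2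
    rw [hC]
    linarith
  have hlim := le_of_tendsto' ((hasSum_geometric_of_lt_one hr0.le hr1).tendsto_sum_nat.const_mul
    (c * T₀ ^ (1 - 4 * σ))) hsum
  have hlow2 : c * T₀⁻¹ * (1 / (3 * δ)) ≤ c * T₀ ^ (1 - 4 * σ) * (1 - r)⁻¹ := by
    refine mul_le_mul (mul_le_mul_of_nonneg_left ?_ hc.le) ?_ (by positivity) (by positivity)
    · rw [← Real.rpow_neg_one]
      exact Real.rpow_le_rpow_of_exponent_le (by linarith) (by linarith)
    · rw [one_div]
      exact inv_anti₀ (by linarith) hgap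
  have he : 4 * π * (ε * E / δ) = c / (6 * T₀ * δ) := by
    rw [hεdef]
    field_simp
    ring
  have h3 := hlow2.trans hlim
  rw [he, show c * T₀⁻¹ * (1 / (3 * δ)) = 2 * (c / (6 * T₀ * δ)) by field_simp; ring] at h3
  have h4 : C + 1 ≤ c / (6 * T₀ * δ) := by
    rw [le_div_iff₀ (by positivity)]
    linarith
  linarith

theorem integral_errSq_eq (v : ℝ) :
    ∫ u in (0 : ℝ)..v, errSq u = ∫ x in (1 : ℝ)..Real.exp v, divisorErr x ^ 2 := by
  have h := intervalIntegral.integral_comp_mul_deriv_of_deriv_nonneg (a := (0 : ℝ)) (b := v)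
    (f := Real.exp) (f' := Real.exp) (g := fun x => divisorErr x ^ 2)
    Real.continuous_exp.continuousOn (fun x _ => Real.hasDerivAt_exp x)
    fun x _ => (Real.exp_pos x).le
  rw [Real.exp_zero] at h
  rw [← h]
  rfl

/-- Moving from `⌊x⌋` to `x` costs `log x + 2`. -/
theorem abs_divisorErr_floor_le {x : ℝ} (hx : 1 ≤ x) :
    |divisorErr x - divisorErr ⌊x⌋₊| ≤ Real.log x + 2 := by
  obtain ⟨N, hN⟩ : ∃ N, N = ⌊x⌋₊ := ⟨_, rfl⟩
  have h1 : (1 : ℝ) ≤ N := hN ▸ Nat.one_le_cast.2 (Nat.one_le_floor_iff x |>.2 hx)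
  have h2 : (N : ℝ) ≤ x := hN ▸ Nat.floor_le (by linarith)
  have h3 : x < N + 1 := hN ▸ Nat.lt_floor_add_one x
  rw [← hN, divisorErr, divisorErr, ← hN, Nat.floor_natCast]
  simp only [sub_sub_sub_cancel_left, divisorMain]
  have hl0 : 0 ≤ Real.log N := Real.log_nonneg h1
  have hl1 : Real.log N ≤ Real.log x := Real.log_le_log (by linarith) h2
  have hl2 : (N : ℝ) * (Real.log x - Real.log N) ≤ x - N := by
    rw [← Real.log_div (by linarith) (by linarith)]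
    refine (mul_le_mul_of_nonneg_left (Real.log_le_sub_one_of_pos (by positivity))
      (by linarith)).trans (le_of_eq ?_)
    field_simp
  have hg1 := Real.one_half_lt_eulerMascheroniConstant
  have hg2 := Real.eulerMascheroniConstant_lt_two_thirds
  rw [abs_le]
  constructor <;> nlinarith

/-- **Hardy's theorem** in the variable `⌊x⌋`. -/
theorem exists_frequently_large : ∃ c : ℝ, 0 < c ∧
    ∃ᶠ N : ℕ in atTop, c * (N : ℝ) ^ (1 / 4 : ℝ) ≤ |divisorErr N| := by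
  obtain ⟨ε, hε, hnot⟩ := exists_not_meanSmall
  refine ⟨Real.sqrt ε / 4, by positivity, fun hev => ?_⟩
  obtain ⟨N₀, hN₀⟩ := eventually_atTop.1 hev
  obtain ⟨q, hq⟩ : ∃ q, q = Real.sqrt ε / 4 := ⟨_, rfl⟩
  have hq0 : 0 < q := by rw [hq]; positivity
  have hlog : ∀ᶠ x : ℝ in atTop, Real.log x + 2 ≤ q * x ^ (1 / 4 : ℝ) := by
    filter_upwards [(isLittleO_log_rpow_atTop (by norm_num : (0 : ℝ) < 1 / 4)).bound (half_pos hq0),
      (tendsto_rpow_atTop (by norm_num : (0 : ℝ) < 1 / 4)).eventually_ge_atTop (4 / q),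
      eventually_ge_atTop (1 : ℝ)] with x hb h4 hx
    rw [Real.norm_of_nonneg (Real.log_nonneg hx), Real.norm_of_nonneg (by positivity)] at hb
    rw [div_le_iff₀ hq0] at h4
    linarith
  obtain ⟨X₁, hX₁⟩ := eventually_atTop.1 (hlog.and (eventually_ge_atTop ((N₀ : ℝ) + 1)))
  obtain ⟨u₁, hu₁0, hu₁⟩ : ∃ u₁ : ℝ, 0 ≤ u₁ ∧ X₁ ≤ Real.exp u₁ :=
    ⟨max 0 X₁, le_max_left _ _, (le_max_right 0 X₁).trans
      (by linarith [Real.add_one_le_exp (max 0 X₁)])⟩
  have hpt : ∀ u, u₁ ≤ u → errSq u ≤ 4 * q ^ 2 * Real.exp (3 / 2 * u) := fun u hu => by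
    obtain ⟨x, hx⟩ : ∃ x, x = Real.exp u := ⟨_, rfl⟩
    obtain ⟨hl, hxN⟩ := hX₁ x (hu₁.trans (hx ▸ Real.exp_le_exp.2 hu))
    have hx1 : 1 ≤ x := le_trans (by linarith [(Nat.cast_nonneg N₀ : (0 : ℝ) ≤ N₀)]) hxN
    have hf := hN₀ ⌊x⌋₊ (Nat.le_floor (by linarith))
    rw [not_le, ← hq] at hf
    have hp : (⌊x⌋₊ : ℝ) ^ (1 / 4 : ℝ) ≤ x ^ (1 / 4 : ℝ) :=
      Real.rpow_le_rpow (Nat.cast_nonneg _) (Nat.floor_le (by linarith)) (by norm_num)
    have habs : |divisorErr x| ≤ 2 * q * x ^ (1 / 4 : ℝ) := by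
      have := abs_sub_abs_le_abs_sub (divisorErr x) (divisorErr ⌊x⌋₊)
      nlinarith [abs_divisorErr_floor_le hx1, mul_le_mul_of_nonneg_left hp hq0.le]
    have hsq := pow_le_pow_left₀ (abs_nonneg _) habs 2
    rw [sq_abs] at hsq
    rw [errSq, ← hx]
    refine (mul_le_mul_of_nonneg_right hsq (by linarith)).trans (le_of_eq ?_)
    rw [hx, ← Real.exp_mul, mul_pow, ← Real.exp_nat_mul, mul_assoc, ← Real.exp_add]
    ring_nf
  obtain ⟨v₂, hv₂⟩ : ∃ v₂, ∀ v, v₂ ≤ v →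
      (∫ u in (0 : ℝ)..u₁, errSq u) ≤ ε / 2 * Real.exp (3 / 2 * v) :=
    eventually_atTop.1 (((Real.tendsto_exp_atTop.comp
      (tendsto_id.const_mul_atTop (by norm_num : (0 : ℝ) < 3 / 2))).const_mul_atTop
      (half_pos hε)).eventually_ge_atTop _)
  refine hnot (max u₁ v₂) fun v hv => ?_
  have hv1 : u₁ ≤ v := (le_max_left _ _).trans hv
  rw [← intervalIntegral.integral_add_adjacent_intervals (intervalIntegrable_errSq le_rfl hu₁0)
    (intervalIntegrable_errSq hu₁0 hv1)]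
  have h2 : (∫ u in u₁..v, errSq u) ≤ 4 * q ^ 2 * Real.exp (3 / 2 * v) := by
    have hi : IntervalIntegrable (fun u => 4 * q ^ 2 * Real.exp (3 / 2 * u)) volume u₁ v :=
      (by fun_prop : Continuous fun u => 4 * q ^ 2 * Real.exp (3 / 2 * u)).intervalIntegrable _ _
    refine (intervalIntegral.integral_mono_on hv1 (intervalIntegrable_errSq hu₁0 hv1) hi
      fun u hu => hpt u hu.1).trans ?_
    rw [intervalIntegral.integral_const_mul]
    refine mul_le_mul_of_nonneg_left ?_ (by positivity)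
    rw [intervalIntegral.integral_comp_mul_left (f := Real.exp) (c := (3 / 2 : ℝ)) (by norm_num),
      integral_exp,
      smul_eq_mul]
    linarith [Real.exp_pos (3 / 2 * u₁), Real.exp_pos (3 / 2 * v)]
  have hq2 : 4 * q ^ 2 = ε / 4 := by
    rw [hq, div_pow, Real.sq_sqrt hε.le]
    ring
  rw [hq2] at h2
  linarith [hv₂ v ((le_max_right _ _).trans hv), mul_pos hε (Real.exp_pos (3 / 2 * v))]

end FA.HardyOmega
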