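import Fermat.Agent.PairCorr.Bounds
import Fermat.Agent.BohrLandau.Approx

/-!
# A lower bound for the fourth moment of `ζ` just to the right of `re s = 1 / 4`

The functional equation gives `|ζ (σ + it)| ≫ t ^ (1/2 - σ) |ζ (1 - σ + it)|`, and the first
moment of `ζ (a + it)` on `[T, 2T]` is `T + o (T)` for `2/3 ≤ a ≤ 3/4`.
-/

set_option autoImplicit false

noncomputable section

namespace FA.HardyOmega

open Complex Filter Topology MeasureTheory Finset
open scoped Real ComplexConjugate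

/-- `log ‖Γ‖` grows at least like `log |y|` on horizontal segments. -/
theorem log_norm_Gamma_growth {a b y : ℝ} (ha : 1 ≤ a) (hab : a ≤ b) (hb : b ≤ 2) :
    (Real.log (|y| + 2) - 20) * (b - a) ≤
      Real.log ‖Complex.Gamma ((b : ℂ) + y * I)‖ - Real.log ‖Complex.Gamma ((a : ℂ) + y * I)‖ := by
  obtain ⟨f, hf⟩ : ∃ f : ℝ → ℝ,
      f = fun x : ℝ => (FA.RiemannMangoldt.logGam ((x : ℂ) + y * I)).re := ⟨_, rfl⟩
  have hre : ∀ x : ℝ, ((x : ℂ) + y * I).re = x := fun x => by simp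
  have him : ∀ x : ℝ, ((x : ℂ) + y * I).im = y := fun x => by simp
  have hval : ∀ x : ℝ, 0 < x → Real.log ‖Complex.Gamma ((x : ℂ) + y * I)‖ = f x := fun x hx => by
    rw [← FA.RiemannMangoldt.exp_logGam (z := (x : ℂ) + y * I) (by rw [hre]; exact hx),
      Complex.norm_exp, Real.log_exp, hf]
  have hderiv : ∀ x : ℝ, 0 < x → HasDerivAt f
      ((deriv Complex.Gamma ((x : ℂ) + y * I) / Complex.Gamma ((x : ℂ) + y * I)).re) x := by
    intro x hx
    have h := (FA.RiemannMangoldt.hasDerivAt_logGam (z := (x : ℂ) + y * I)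
      (by rw [hre]; exact hx)).comp_add_const (x : ℂ) (y * I)
    rw [hf]
    exact Complex.reCLM.hasFDerivAt.comp_hasDerivAt x h.comp_ofReal
  rw [hval b (by linarith), hval a (by linarith)]
  refine Convex.mul_sub_le_image_sub_of_le_deriv (convex_Icc a b)
    (fun x hx => (hderiv x (by linarith [hx.1])).continuousAt.continuousWithinAt)
    (fun x hx => ?_) (fun x hx => ?_) a (Set.left_mem_Icc.2 hab) b (Set.right_mem_Icc.2 hab) hab
  · rw [interior_Icc] at hx
    exact (hderiv x (by linarith [hx.1])).differentiableAt.differentiableWithinAt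
  · rw [interior_Icc] at hx
    rw [(hderiv x (by linarith [hx.1])).deriv]
    have h := FA.PairCorrelation.norm_digamma_sub_log_le (z := (x : ℂ) + y * I)
      (by rw [hre]; linarith [hx.1]) (by rw [hre]; linarith [hx.2])
    rw [him] at h
    have h2 := abs_le.1 ((Complex.abs_re_le_norm _).trans h)
    rw [sub_re, ofReal_re] at h2
    linarith [h2.1]

/-- The functional equation as a lower bound. -/
theorem norm_zeta_ge {σ t : ℝ} (hσ : 0 < σ) (hσ' : σ ≤ 1 / 3) (ht : 2 ≤ t) :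
    Real.exp (-12) / 16 * t ^ (1 / 2 - σ) * ‖riemannZeta (((1 - σ : ℝ) : ℂ) + t * I)‖ ≤
      ‖riemannZeta ((σ : ℂ) + t * I)‖ := by
  obtain ⟨s, hs⟩ : ∃ s : ℂ, s = (σ : ℂ) + t * I := ⟨_, rfl⟩
  obtain ⟨A, hA⟩ : ∃ A : ℂ, A = ((σ / 2 : ℝ) : ℂ) + ((t / 2 : ℝ) : ℂ) * I := ⟨_, rfl⟩
  obtain ⟨B, hB⟩ : ∃ B : ℂ, B = (((1 - σ) / 2 : ℝ) : ℂ) + ((t / 2 : ℝ) : ℂ) * I := ⟨_, rfl⟩
  have hs0 : s ≠ 0 := fun h => by simpa [hs, hσ.ne'] using congrArg Complex.re h
  have hs1 : 1 - s ≠ 0 := fun h => by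
    have := congrArg Complex.re h
    simp [hs] at this
    linarith
  have hA0 : A ≠ 0 := fun h => by simpa [hA, hσ.ne'] using congrArg Complex.re h
  have hB0 : B ≠ 0 := fun h => by
    have := congrArg Complex.re h
    simp [hB] at this
    linarith
  have hconj : conj (1 - s) = ((1 - σ : ℝ) : ℂ) + t * I := Complex.ext (by simp [hs]) (by simp [hs])
  have h1 : ‖Gammaℝ s‖ = π ^ (-σ / 2) * ‖Complex.Gamma A‖ := by
    rw [Gammaℝ_def, norm_mul, norm_cpow_eq_rpow_re_of_pos Real.pi_pos]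
    congr 2
    · simp [hs]
    · rw [hs, hA]; push_cast; ring
  have h2 : ‖Gammaℝ (1 - s)‖ = π ^ (-(1 - σ) / 2) * ‖Complex.Gamma B‖ := by
    rw [Gammaℝ_def, norm_mul, norm_cpow_eq_rpow_re_of_pos Real.pi_pos, ← Complex.norm_conj
      (Complex.Gamma ((1 - s) / 2)), ← Complex.Gamma_conj]
    congr 2
    · simp [hs]
    · rw [map_div₀, hconj, hB, map_ofNat]; push_cast; ring
  have hne1 : Gammaℝ (1 - s) ≠ 0 := Gammaℝ_ne_zero_of_re_pos (by simp [hs]; linarith)
  have hne2 : Gammaℝ s ≠ 0 := Gammaℝ_ne_zero_of_re_pos (by simp [hs, hσ])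
  have hfe : riemannZeta s = riemannZeta (1 - s) * Gammaℝ (1 - s) / Gammaℝ s := by
    rw [riemannZeta_def_of_ne_zero hs0, riemannZeta_def_of_ne_zero hs1,
      completedRiemannZeta_one_sub, div_mul_cancel₀ _ hne1]
  rw [← hs, hfe, norm_div, norm_mul, ← Complex.norm_conj (riemannZeta (1 - s)), ← riemannZeta_conj,
    hconj, mul_comm _ (‖Gammaℝ (1 - s)‖), mul_div_right_comm]
  refine mul_le_mul_of_nonneg_right ?_ (norm_nonneg _)
  rw [h1, h2]
  -- compare `Γ` at `A + 1` and `B + 1`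
  have hG := log_norm_Gamma_growth (a := σ / 2 + 1) (b := (1 - σ) / 2 + 1) (y := t / 2)
    (by linarith) (by linarith) (by linarith)
  have eA : ((σ / 2 + 1 : ℝ) : ℂ) + ((t / 2 : ℝ) : ℂ) * I = A + 1 := by rw [hA]; push_cast; ring
  have eB : (((1 - σ) / 2 + 1 : ℝ) : ℂ) + ((t / 2 : ℝ) : ℂ) * I = B + 1 := by
    rw [hB]; push_cast; ring
  rw [eA, eB] at hG
  have gA : 0 < ‖Complex.Gamma (A + 1)‖ :=
    norm_pos_iff.2 (Complex.Gamma_ne_zero_of_re_pos (by simp [hA]; linarith))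
  have gB : 0 < ‖Complex.Gamma (B + 1)‖ :=
    norm_pos_iff.2 (Complex.Gamma_ne_zero_of_re_pos (by simp [hB]; linarith))
  rw [← Real.log_div gB.ne' gA.ne', Real.le_log_iff_exp_le (div_pos gB gA),
    Complex.Gamma_add_one A hA0, Complex.Gamma_add_one B hB0, norm_mul, norm_mul] at hG
  have hd : (1 - σ) / 2 + 1 - (σ / 2 + 1) = 1 / 2 - σ := by ring
  rw [hd, abs_of_nonneg (show (0 : ℝ) ≤ t / 2 by linarith)] at hG
  have hpow : Real.exp (-12) * t ^ (1 / 2 - σ) ≤
      Real.exp ((Real.log (t / 2 + 2) - 20) * (1 / 2 - σ)) * 2 := by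
    have e : t ^ (1 / 2 - σ) = Real.exp (Real.log t * (1 / 2 - σ)) :=
      Real.rpow_def_of_pos (by linarith) _
    have hl : Real.log t - Real.log 2 ≤ Real.log (t / 2 + 2) := by
      rw [← Real.log_div (by linarith) two_ne_zero]
      exact Real.log_le_log (by linarith) (by linarith)
    have hl2 : Real.log 2 ≤ 1 := by linarith [Real.log_two_lt_d9]
    have h2e : (2 : ℝ) = Real.exp (Real.log 2) := (Real.exp_log two_pos).symm
    rw [e, ← Real.exp_add]
    conv_rhs => rw [h2e, ← Real.exp_add]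
    refine Real.exp_le_exp.2 ?_
    rw [Real.exp_log two_pos]
    nlinarith [Real.log_nonneg one_le_two]
  have hBA : ‖B‖ ≤ 2 * ‖A‖ := by
    have k1 := norm_le_abs_re_add_abs_im B
    have k2 := Complex.abs_im_le_norm A
    simp only [hA, hB, add_re, add_im, ofReal_re, ofReal_im, mul_re, mul_im, I_re, I_im, mul_zero,
      mul_one, sub_self, add_zero, zero_add] at k1 k2
    rw [abs_of_nonneg (show (0 : ℝ) ≤ (1 - σ) / 2 by linarith),
      abs_of_nonneg (show (0 : ℝ) ≤ t / 2 by linarith)] at k1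
    rw [abs_of_nonneg (show (0 : ℝ) ≤ t / 2 by linarith)] at k2
    rw [hA, hB]
    linarith
  have hπ : π ^ (-(1 - σ) / 2) ≥ π ^ (-σ / 2) / 4 := by
    have e : π ^ (-(1 - σ) / 2) = π ^ (-σ / 2) * π ^ (σ - 1 / 2) := by
      rw [← Real.rpow_add Real.pi_pos]; congr 1; ring
    have h4 : (4 : ℝ)⁻¹ ≤ π ^ (σ - 1 / 2) := by
      refine le_trans ?_ (Real.rpow_le_rpow_of_exponent_le (by linarith [Real.pi_gt_three])
        (show (-1 : ℝ) ≤ σ - 1 / 2 by linarith))
      rw [Real.rpow_neg_one]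
      exact inv_anti₀ Real.pi_pos Real.pi_le_four
    rw [e, ge_iff_le, div_eq_mul_inv]
    exact mul_le_mul_of_nonneg_left h4 (Real.rpow_nonneg Real.pi_pos.le _)
  have hA' : 0 < ‖A‖ := norm_pos_iff.2 hA0
  have gA0 : 0 < ‖Complex.Gamma A‖ :=
    norm_pos_iff.2 (Complex.Gamma_ne_zero_of_re_pos (by simp [hA, hσ]))
  obtain ⟨P, hP⟩ : ∃ P, P = π ^ (-σ / 2) := ⟨_, rfl⟩
  have hP0 : 0 < P := hP ▸ Real.rpow_pos_of_pos Real.pi_pos _
  rw [← hP] at hπ ⊢
  rw [le_div_iff₀ (by positivity)]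
  rw [le_div_iff₀ (mul_pos hA' gA0)] at hG
  have h5 : Real.exp (-12) * t ^ (1 / 2 - σ) * ‖Complex.Gamma A‖ ≤
      4 * ‖Complex.Gamma B‖ := by
    have h6 := mul_le_mul_of_nonneg_right hpow (mul_nonneg hA'.le gA0.le)
    nlinarith [mul_le_mul_of_nonneg_right hBA (norm_nonneg (Complex.Gamma B))]
  calc Real.exp (-12) / 16 * t ^ (1 / 2 - σ) * (P * ‖Complex.Gamma A‖)
      = P / 4 * (Real.exp (-12) * t ^ (1 / 2 - σ) * ‖Complex.Gamma A‖) / 4 := by ring
    _ ≤ P / 4 * (4 * ‖Complex.Gamma B‖) / 4 := by gcongr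
    _ = P / 4 * ‖Complex.Gamma B‖ := by ring
    _ ≤ _ := mul_le_mul_of_nonneg_right hπ (norm_nonneg _)

theorem norm_integral_cpow_le {n : ℕ} (hn : 2 ≤ n) (a u v : ℝ) :
    ‖∫ t in u..v, 1 / (n : ℂ) ^ ((a : ℂ) + t * I)‖ ≤ 4 * (n : ℝ) ^ (-a) := by
  have hn0 : (n : ℂ) ≠ 0 := Nat.cast_ne_zero.2 (by omega)
  obtain ⟨c, hc⟩ : ∃ c : ℂ, c = -(Complex.log n) * I := ⟨_, rfl⟩
  have hl : Real.log 2 ≤ Real.log n := Real.log_le_log two_pos (by exact_mod_cast hn)
  have hl2 : (1 : ℝ) / 2 ≤ Real.log 2 := by linarith [Real.log_two_gt_d9]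
  have hcn : ‖c‖ = Real.log n := by
    rw [hc, norm_mul, norm_neg, norm_I, mul_one, ← natCast_log, norm_real, Real.norm_eq_abs,
      abs_of_nonneg (Real.log_natCast_nonneg n)]
  have hc0 : c ≠ 0 := by rw [← norm_pos_iff, hcn]; linarith
  have e : (fun t : ℝ => 1 / (n : ℂ) ^ ((a : ℂ) + t * I)) =
      fun t : ℝ => ((n : ℂ) ^ (a : ℂ))⁻¹ * Complex.exp (c * t) := funext fun t => by
    rw [cpow_add _ _ hn0, one_div, mul_inv, cpow_def_of_ne_zero hn0 (t * I), ← Complex.exp_neg, hc]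
    ring_nf
  rw [e, intervalIntegral.integral_const_mul, integral_exp_mul_complex hc0, norm_mul, norm_inv,
    norm_natCast_cpow_of_pos (by omega), ofReal_re, ← Real.rpow_neg (Nat.cast_nonneg _),
    mul_comm (4 : ℝ)]
  refine mul_le_mul_of_nonneg_left ?_ (Real.rpow_nonneg (Nat.cast_nonneg _) _)
  rw [norm_div, hcn, div_le_iff₀ (by linarith)]
  refine (norm_sub_le _ _).trans ?_
  have h1 : ∀ x : ℝ, ‖Complex.exp (c * x)‖ = 1 := fun x => by
    rw [Complex.norm_exp, hc]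
    simp [← natCast_log]
  rw [h1, h1]
  linarith

/-- The first moment of `ζ (a + it)` on `[T, 2T]`. -/
theorem exists_first_moment : ∃ T₀ : ℝ, 2 ≤ T₀ ∧ ∀ a T : ℝ, 2 / 3 ≤ a → a ≤ 1 → T₀ ≤ T →
    T / 2 ≤ ∫ t in T..2 * T, ‖riemannZeta ((a : ℂ) + t * I)‖ := by
  have h1 : Tendsto (fun T : ℝ => 4000 * (2 * T) ^ (-(1 / 6) : ℝ)) atTop (𝓝 (4000 * 0)) :=
    ((tendsto_rpow_neg_atTop (by norm_num : (0 : ℝ) < 1 / 6)).comp
      (tendsto_id.const_mul_atTop two_pos)).const_mul _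
  have h2 : Tendsto (fun T : ℝ => 24 * (2 * T) ^ (-(2 / 3) : ℝ)) atTop (𝓝 (24 * 0)) :=
    ((tendsto_rpow_neg_atTop (by norm_num : (0 : ℝ) < 2 / 3)).comp
      (tendsto_id.const_mul_atTop two_pos)).const_mul _
  rw [mul_zero] at h1 h2
  have h8 : (0 : ℝ) < 1 / 8 := by norm_num
  obtain ⟨T₀, hT₀⟩ := eventually_atTop.1 ((h1.eventually_le_const h8).and
    ((h2.eventually_le_const h8).and (eventually_ge_atTop (3 : ℝ))))
  refine ⟨max T₀ 2, le_max_right _ _, fun a T ha ha' hT => ?_⟩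
  obtain ⟨e1, e2, hT3⟩ := hT₀ T ((le_max_left _ _).trans hT)
  obtain ⟨M, hM⟩ : ∃ M, M = ⌊2 * T⌋₊ := ⟨_, rfl⟩
  have hMt : 2 * T ≤ (M : ℝ) + 1 := hM ▸ (Nat.lt_floor_add_one _).le
  have hMle : (M : ℝ) ≤ 2 * T := hM ▸ Nat.floor_le (by linarith)
  have hM1 : 1 ≤ M := hM ▸ Nat.le_floor (by push_cast; linarith)
  have hcont : ∀ n ∈ Icc 1 M, Continuous fun t : ℝ => 1 / (n : ℂ) ^ ((a : ℂ) + t * I) := by
    intro n hn
    have hn0 : (n : ℂ) ≠ 0 := Nat.cast_ne_zero.2 (by have := (mem_Icc.1 hn).1; omega)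
    exact continuous_const.div ((continuous_const.add
      (continuous_ofReal.mul continuous_const)).const_cpow (Or.inl hn0))
      fun t => (cpow_ne_zero_iff (y := (a : ℂ) + t * I)).2 (Or.inl hn0)
  have hS : Continuous (FA.BohrLandau.vertSum a M) := continuous_finsetSum _ hcont
  have hne : ∀ t ∈ Set.uIcc T (2 * T), (a : ℂ) + t * I ≠ 1 := fun t ht h => by
    rw [Set.uIcc_of_le (by linarith)] at ht
    have := congrArg Complex.im h
    simp at this
    linarith [ht.1]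
  have hZ : ContinuousOn (fun t : ℝ => riemannZeta ((a : ℂ) + t * I)) (Set.uIcc T (2 * T)) :=
    fun t ht => (ContinuousAt.comp' (f := fun t : ℝ => (a : ℂ) + t * I)
      (differentiableAt_riemannZeta (hne t ht)).continuousAt (by fun_prop)).continuousWithinAt
  have hE : IntervalIntegrable (fun t : ℝ => FA.BohrLandau.vertErr a M t) volume T (2 * T) :=
    (hZ.sub hS.continuousOn).intervalIntegrable
  have hsplit : (∫ t in T..2 * T, riemannZeta ((a : ℂ) + t * I)) =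
      (∑ n ∈ Icc 1 M, ∫ t in T..2 * T, 1 / (n : ℂ) ^ ((a : ℂ) + t * I)) +
        ∫ t in T..2 * T, FA.BohrLandau.vertErr a M t := by
    rw [← intervalIntegral.integral_finsetSum fun n hn => (hcont n hn).intervalIntegrable _ _,
      ← intervalIntegral.integral_add
        ((continuous_finsetSum _ hcont).intervalIntegrable _ _) hE]
    refine intervalIntegral.integral_congr fun t _ => ?_
    simp [FA.BohrLandau.vertErr, FA.BohrLandau.vertSum]
  have herr : ‖∫ t in T..2 * T, FA.BohrLandau.vertErr a M t‖ ≤ T / 8 := by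
    refine (intervalIntegral.norm_integral_le_of_norm_le_const (C := 1 / 8) fun t ht => ?_).trans
      (le_of_eq ?_)
    · rw [Set.uIoc_of_le (by linarith)] at ht
      have h := FA.BohrLandau.norm_vertErr_le (σ := a) (t := t) (M := M) (by linarith) (by linarith)
        (by linarith [ht.1]) (ht.2.trans hMt)
      refine h.trans (le_trans ?_ e1)
      have h3 : ((M : ℝ) + 1) ^ (1 / 2 - a) ≤ (2 * T) ^ (-(1 / 6) : ℝ) :=
        (Real.rpow_le_rpow_of_exponent_le (by linarith)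
          (by linarith : 1 / 2 - a ≤ -(1 / 6 : ℝ))).trans
          (Real.rpow_le_rpow_of_nonpos (by linarith) hMt (by norm_num))
      have h4 : √((M : ℝ) + 1) / t ≤ 1 := by
        rw [div_le_one (by linarith [ht.1]), Real.sqrt_le_left (by linarith [ht.1])]
        nlinarith [ht.1]
      calc 2000 * ((M : ℝ) + 1) ^ (1 / 2 - a) * (1 + √((M : ℝ) + 1) / t)
          ≤ 2000 * (2 * T) ^ (-(1 / 6) : ℝ) * 2 :=
            mul_le_mul (mul_le_mul_of_nonneg_left h3 (by norm_num)) (by linarith)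
              (add_nonneg zero_le_one (div_nonneg (Real.sqrt_nonneg _) (by linarith [ht.1])))
              (by positivity)
        _ = _ := by ring
    · rw [show 2 * T - T = T by ring, abs_of_nonneg (by linarith)]; ring
  obtain ⟨R, hR⟩ : ∃ R, R = ∑ n ∈ Icc 2 M, ∫ t in T..2 * T, 1 / (n : ℂ) ^ ((a : ℂ) + t * I) :=
    ⟨_, rfl⟩
  have hone : (∑ n ∈ Icc 1 M, ∫ t in T..2 * T, 1 / (n : ℂ) ^ ((a : ℂ) + t * I)) = (T : ℂ) + R := by
    rw [hR, ← add_sum_Ioc_eq_sum_Icc hM1,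
      show Ioc 1 M = Icc 2 M from (Icc_succ_left_eq_Ioc 1 M).symm]
    simp
    ring
  have hRle : ‖R‖ ≤ T / 8 := by
    rw [hR]
    refine (norm_sum_le _ _).trans ((sum_le_sum (g := fun n : ℕ => 4 * (n : ℝ) ^ (-(2 / 3) : ℝ))
      fun n hn => ?_).trans ?_)
    · refine (norm_integral_cpow_le (mem_Icc.1 hn).1 a T (2 * T)).trans ?_
      refine mul_le_mul_of_nonneg_left ?_ (by norm_num)
      exact Real.rpow_le_rpow_of_exponent_le
        (by exact_mod_cast le_trans one_le_two (mem_Icc.1 hn).1) (by linarith)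
    · have hstep : ∀ K : ℕ,
          ∑ n ∈ Icc 2 K, (n : ℝ) ^ (-(2 / 3) : ℝ) ≤ 3 * (K : ℝ) ^ (1 / 3 : ℝ) := by
        intro K
        induction K with
        | zero => simp
        | succ K ih =>
          rcases Nat.lt_or_ge K 1 with hK | hK
          · interval_cases K; simp
          rw [Finset.sum_Icc_succ_top (by omega)]
          refine le_trans (add_le_add ih le_rfl) ?_
          obtain ⟨p, hp⟩ : ∃ p, p = (K : ℝ) ^ (1 / 3 : ℝ) := ⟨_, rfl⟩
          obtain ⟨q, hq⟩ : ∃ q, q = ((K + 1 : ℕ) : ℝ) ^ (1 / 3 : ℝ) := ⟨_, rfl⟩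
          have hq0 : 0 < q := hq ▸ Real.rpow_pos_of_pos (by positivity) _
          have hp0 : 0 ≤ p := hp ▸ Real.rpow_nonneg (Nat.cast_nonneg _) _
          have hp3 : p ^ 3 = K := by
            rw [hp, ← Real.rpow_natCast, ← Real.rpow_mul (Nat.cast_nonneg _)]; norm_num
          have hq3 : q ^ 3 = (K : ℝ) + 1 := by
            rw [hq, ← Real.rpow_natCast, ← Real.rpow_mul (Nat.cast_nonneg _)]; norm_num
          have hpq : p ≤ q := hp ▸ hq ▸
            Real.rpow_le_rpow (Nat.cast_nonneg _) (by push_cast; linarith) (by norm_num)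
          have e : ((K + 1 : ℕ) : ℝ) ^ (-(2 / 3) : ℝ) = 1 / q ^ 2 := by
            rw [hq, ← Real.rpow_natCast, ← Real.rpow_mul (Nat.cast_nonneg _), one_div,
              ← Real.rpow_neg (Nat.cast_nonneg _)]
            norm_num
          rw [e, ← hp, ← hq, add_comm, ← le_sub_iff_add_le, div_le_iff₀ (by positivity)]
          nlinarith [mul_nonneg (sub_nonneg.2 hpq) (sub_nonneg.2 hpq)]
      rw [← mul_sum]
      refine (mul_le_mul_of_nonneg_left ((hstep M).trans (mul_le_mul_of_nonneg_left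
        (Real.rpow_le_rpow (Nat.cast_nonneg _) hMle (by norm_num)) (by norm_num)))
        (by norm_num)).trans ?_
      have e3 : (2 * T) ^ (1 / 3 : ℝ) = 2 * T * (2 * T) ^ (-(2 / 3) : ℝ) := by
        conv_rhs => rw [← Real.rpow_one (2 * T), ← Real.rpow_mul (by linarith),
          one_mul, ← Real.rpow_add (by linarith)]
        norm_num
      rw [e3]
      nlinarith
  rw [hone] at hsplit
  have hI := intervalIntegral.norm_integral_le_integral_norm (μ := volume)
    (f := fun t : ℝ => riemannZeta ((a : ℂ) + t * I)) (show T ≤ 2 * T by linarith)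
  rw [hsplit, add_assoc] at hI
  have h5 := norm_sub_le_norm_add ((T : ℂ))
    (R + ∫ t in T..2 * T, FA.BohrLandau.vertErr a M t)
  rw [norm_real, Real.norm_of_nonneg (by linarith : 0 ≤ T)] at h5
  linarith [norm_add_le R (∫ t in T..2 * T, FA.BohrLandau.vertErr a M t)]

/-- The fourth moment near `re s = 1 / 4`, weighted by `|s| ^ (-2)`. -/
theorem exists_fourth_moment_lower : ∃ c T₀ : ℝ, 0 < c ∧ 2 ≤ T₀ ∧ ∀ σ T : ℝ,
    0 < σ → σ ≤ 1 / 3 → T₀ ≤ T → c * T ^ (1 - 4 * σ) ≤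
      ∫ t in T..2 * T, ‖riemannZeta ((σ : ℂ) + t * I)‖ ^ 4 / ‖(σ : ℂ) + t * I‖ ^ 2 := by
  obtain ⟨T₀, h2, hmom⟩ := exists_first_moment
  obtain ⟨k, hk⟩ : ∃ k, k = Real.exp (-12) / 16 := ⟨_, rfl⟩
  have hk0 : 0 < k := hk ▸ div_pos (Real.exp_pos _) (by norm_num)
  refine ⟨k ^ 4 / 144, T₀, by positivity, h2, fun σ T hσ hσ' hT => ?_⟩
  have hT0 : 0 < T := by linarith
  have h := hmom (1 - σ) T (by linarith) (by linarith) hT
  obtain ⟨w, hw⟩ : ∃ w, w = k ^ 4 * T ^ (-(4 * σ)) / 9 := ⟨_, rfl⟩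
  have hw0 : 0 ≤ w := by rw [hw]; positivity
  have hne : ∀ x : ℝ, ∀ t ∈ Set.uIcc T (2 * T), (x : ℂ) + t * I ≠ 1 := fun x t ht h => by
    rw [Set.uIcc_of_le (by linarith)] at ht
    have := congrArg Complex.im h
    simp at this
    linarith [ht.1]
  have hcont : ∀ x : ℝ, ContinuousOn (fun t : ℝ => ‖riemannZeta ((x : ℂ) + t * I)‖)
      (Set.uIcc T (2 * T)) := fun x t ht =>
    (ContinuousAt.comp' (f := fun t : ℝ => (x : ℂ) + t * I)
      (differentiableAt_riemannZeta (hne x t ht)).continuousAt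
      (by fun_prop)).norm.continuousWithinAt
  have hlow : IntervalIntegrable (fun t : ℝ =>
      w * (‖riemannZeta (((1 - σ : ℝ) : ℂ) + t * I)‖ / 2 - 3 / 16)) volume T (2 * T) :=
    (continuousOn_const.mul (((hcont _).div_const _).sub continuousOn_const)).intervalIntegrable
  have hhigh : IntervalIntegrable (fun t : ℝ =>
      ‖riemannZeta ((σ : ℂ) + t * I)‖ ^ 4 / ‖(σ : ℂ) + t * I‖ ^ 2) volume T (2 * T) :=
    (((hcont σ).pow 4).div (by fun_prop) fun t _ => pow_ne_zero 2 (norm_ne_zero_iff.2 fun h => by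
      simpa [hσ.ne'] using congrArg Complex.re h)).intervalIntegrable
  refine le_trans ?_ (intervalIntegral.integral_mono_on (by linarith) hlow hhigh fun t ht => ?_)
  · rw [intervalIntegral.integral_const_mul, intervalIntegral.integral_sub
      ((hcont _).div_const _).intervalIntegrable intervalIntegrable_const,
      intervalIntegral.integral_div, intervalIntegral.integral_const, smul_eq_mul]
    have e : k ^ 4 / 144 * T ^ (1 - 4 * σ) = w * (T / 16) := by
      rw [hw, show 1 - 4 * σ = -(4 * σ) + 1 by ring, Real.rpow_add hT0, Real.rpow_one]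
      ring
    rw [e]
    exact mul_le_mul_of_nonneg_left (by linarith) hw0
  · obtain ⟨x, hx⟩ : ∃ x, x = ‖riemannZeta (((1 - σ : ℝ) : ℂ) + t * I)‖ := ⟨_, rfl⟩
    have hx0 : 0 ≤ x := hx ▸ norm_nonneg _
    have hx4 : x / 2 - 3 / 16 ≤ x ^ 4 := by
      nlinarith [sq_nonneg (x - 1 / 2), sq_nonneg (x + 1 / 2),
        mul_nonneg hx0 (sq_nonneg (x - 1 / 2))]
    have hz := norm_zeta_ge hσ hσ' (show 2 ≤ t by linarith [ht.1])
    rw [← hk, ← hx] at hz
    have hs : ‖(σ : ℂ) + t * I‖ ≤ 3 * T := by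
      refine (norm_add_le _ _).trans ?_
      rw [norm_mul, norm_I, mul_one, norm_real, norm_real, Real.norm_of_nonneg hσ.le,
        Real.norm_of_nonneg (by linarith [ht.1])]
      linarith [ht.2]
    have hp : T ^ (1 / 2 - σ) ≤ t ^ (1 / 2 - σ) :=
      Real.rpow_le_rpow hT0.le ht.1 (by linarith)
    rw [← hx]
    refine (mul_le_mul_of_nonneg_left hx4 hw0).trans ?_
    have hpos : 0 < ‖(σ : ℂ) + t * I‖ := norm_pos_iff.2 fun h => by
      simpa [hσ.ne'] using congrArg Complex.re h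
    have e : w * x ^ 4 = (k * T ^ (1 / 2 - σ) * x) ^ 4 / (3 * T) ^ 2 := by
      have e4 : (T ^ (1 / 2 - σ)) ^ 4 = T ^ 2 * T ^ (-(4 * σ)) := by
        rw [← Real.rpow_natCast, ← Real.rpow_mul hT0.le, ← Real.rpow_natCast T 2,
          ← Real.rpow_add hT0]
        push_cast
        ring_nf
      rw [hw, mul_pow, mul_pow, e4]
      field_simp
      ring
    rw [e]
    gcongr
    exact le_trans (by gcongr) hz

end FA.HardyOmega
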